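import Mathlib
import Fermat.Agent.LT.T6.H189.ArchIntCut

/-!
# Row LT, tower T6, sub-leaf T6.23.07 `CartanRC` (registry row 1469, helper281)

OFF-MAIN.  Cartan decomposition of `GL₂(ℝ)⁺` with the values of the parameters:
`g = e^r k_{θ₁} a_t k_{θ₂}`, `r = log (det g) / 2`, `t = arcosh ρ(g)`.

Route: write `g = !![a, b; c, d]`, `D = det g > 0`, `σ = e^{log D / 2}` (`σ² = D`), and
`α = ((a + d) + i (c - b)) / (2σ)`, `β = ((a - d) + i (c + b)) / (2σ)`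
(`g / σ` acts on `ℂ = ℝ²` as `z ↦ α z + β z̄`).  Then `|α|² - |β|² = 1`, `|α|² + |β|² = ρ(g)`,
hence `|α| = cosh (t/2)`, `|β| = sinh (t/2)`, and `θ₁ = (arg α + arg β)/2`,
`θ₂ = (arg α - arg β)/2` work.
-/

set_option autoImplicit false

open scoped Matrix

noncomputable section

namespace Fermat.Agent.LT.T6.H281

open Fermat.Agent.LT.T6.H189

/-- The entries of `e^r k_{θ₁} a_t k_{θ₂}`. -/
theorem polEntries281 (r θ₁ t θ₂ : ℝ) :
    ((sclR r * rotR θ₁ * atR t * rotR θ₂ : GL (Fin 2) ℝ) : Matrix (Fin 2) (Fin 2) ℝ) =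
      !![Real.exp r * (Real.cos θ₁ * Real.exp (t / 2) * Real.cos θ₂
            - Real.sin θ₁ * Real.exp (-(t / 2)) * Real.sin θ₂),
         Real.exp r * (-(Real.cos θ₁ * Real.exp (t / 2) * Real.sin θ₂)
            - Real.sin θ₁ * Real.exp (-(t / 2)) * Real.cos θ₂);
         Real.exp r * (Real.sin θ₁ * Real.exp (t / 2) * Real.cos θ₂
            + Real.cos θ₁ * Real.exp (-(t / 2)) * Real.sin θ₂),
         Real.exp r * (-(Real.sin θ₁ * Real.exp (t / 2) * Real.sin θ₂)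
            + Real.cos θ₁ * Real.exp (-(t / 2)) * Real.cos θ₂)] := by
  ext i j
  fin_cases i <;> fin_cases j <;>
    simp [sclR, rotR, atR, dgR, Matrix.GeneralLinearGroup.mkOfDetNeZero, Matrix.mul_apply,
      Fin.sum_univ_two] <;> ring

/-- `ρ(g)` in terms of the entries. -/
theorem rhoP_entries281 (g : GL (Fin 2) ℝ) :
    rhoP g =
      ((g : Matrix (Fin 2) (Fin 2) ℝ) 0 0 ^ 2 + (g : Matrix (Fin 2) (Fin 2) ℝ) 0 1 ^ 2
        + (g : Matrix (Fin 2) (Fin 2) ℝ) 1 0 ^ 2 + (g : Matrix (Fin 2) (Fin 2) ℝ) 1 1 ^ 2) /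
      (2 * ((g : Matrix (Fin 2) (Fin 2) ℝ) 0 0 * (g : Matrix (Fin 2) (Fin 2) ℝ) 1 1
        - (g : Matrix (Fin 2) (Fin 2) ℝ) 0 1 * (g : Matrix (Fin 2) (Fin 2) ℝ) 1 0)) := by
  unfold rhoP
  rw [Matrix.det_fin_two, Matrix.trace_fin_two]
  simp only [Matrix.mul_apply, Matrix.transpose_apply, Fin.sum_univ_two]
  congr 1
  ring

/-- Scalar core of the Cartan decomposition: the four entries. -/
theorem cartanCore281 (a b c d : ℝ) (hD : 0 < a * d - b * c) (σ : ℝ) (hσ0 : 0 < σ)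
    (hσ2 : σ ^ 2 = a * d - b * c) (t : ℝ) (ht0 : 0 ≤ t)
    (hcosh : Real.cosh t = (a ^ 2 + b ^ 2 + c ^ 2 + d ^ 2) / (2 * (a * d - b * c))) :
    ∃ θ₁ θ₂ : ℝ,
      a = σ * (Real.cos θ₁ * Real.exp (t / 2) * Real.cos θ₂
            - Real.sin θ₁ * Real.exp (-(t / 2)) * Real.sin θ₂) ∧
      b = σ * (-(Real.cos θ₁ * Real.exp (t / 2) * Real.sin θ₂)
            - Real.sin θ₁ * Real.exp (-(t / 2)) * Real.cos θ₂) ∧
      c = σ * (Real.sin θ₁ * Real.exp (t / 2) * Real.cos θ₂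
            + Real.cos θ₁ * Real.exp (-(t / 2)) * Real.sin θ₂) ∧
      d = σ * (-(Real.sin θ₁ * Real.exp (t / 2) * Real.sin θ₂)
            + Real.cos θ₁ * Real.exp (-(t / 2)) * Real.cos θ₂) := by
  have hσne : σ ≠ 0 := hσ0.ne'
  have hDne : a * d - b * c ≠ 0 := hD.ne'
  -- hyperbolic data
  have hCS1 : Real.cosh (t / 2) ^ 2 = Real.sinh (t / 2) ^ 2 + 1 := Real.cosh_sq (t / 2)
  have hCS2 : Real.cosh t = Real.cosh (t / 2) ^ 2 + Real.sinh (t / 2) ^ 2 := by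
    have h := Real.cosh_two_mul (t / 2)
    rwa [show 2 * (t / 2) = t by ring] at h
  have hC0 : 0 < Real.cosh (t / 2) := Real.cosh_pos _
  have hS0 : 0 ≤ Real.sinh (t / 2) := Real.sinh_nonneg_iff.mpr (by positivity)
  have e1 : Real.exp (t / 2) = Real.cosh (t / 2) + Real.sinh (t / 2) :=
    (Real.cosh_add_sinh _).symm
  have e2 : Real.exp (-(t / 2)) = Real.cosh (t / 2) - Real.sinh (t / 2) :=
    (Real.cosh_sub_sinh _).symm
  -- the relation between `ρ`, `σ` and the entries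
  have hρ : (Real.cosh (t / 2) ^ 2 + Real.sinh (t / 2) ^ 2) * (2 * σ ^ 2)
      = a ^ 2 + b ^ 2 + c ^ 2 + d ^ 2 := by
    rw [← hCS2, hcosh, hσ2]
    field_simp
  -- the two complex numbers
  obtain ⟨α, hα⟩ : ∃ α : ℂ, α = ⟨(a + d) / (2 * σ), (c - b) / (2 * σ)⟩ := ⟨_, rfl⟩
  obtain ⟨β, hβ⟩ : ∃ β : ℂ, β = ⟨(a - d) / (2 * σ), (c + b) / (2 * σ)⟩ := ⟨_, rfl⟩
  have hαre : α.re = (a + d) / (2 * σ) := by rw [hα]
  have hαim : α.im = (c - b) / (2 * σ) := by rw [hα]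
  have hβre : β.re = (a - d) / (2 * σ) := by rw [hβ]
  have hβim : β.im = (c + b) / (2 * σ) := by rw [hβ]
  have hα2 : ‖α‖ ^ 2 = Real.cosh (t / 2) ^ 2 := by
    rw [Complex.sq_norm, Complex.normSq_apply, hαre, hαim]
    have h4 : (4 : ℝ) * σ ^ 2 ≠ 0 := by positivity
    field_simp
    nlinarith [hρ, hCS1, hσ2]
  have hβ2 : ‖β‖ ^ 2 = Real.sinh (t / 2) ^ 2 := by
    rw [Complex.sq_norm, Complex.normSq_apply, hβre, hβim]
    have h4 : (4 : ℝ) * σ ^ 2 ≠ 0 := by positivity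
    field_simp
    nlinarith [hρ, hCS1, hσ2]
  have hαC : ‖α‖ = Real.cosh (t / 2) := (sq_eq_sq₀ (norm_nonneg _) hC0.le).mp hα2
  have hβS : ‖β‖ = Real.sinh (t / 2) := (sq_eq_sq₀ (norm_nonneg _) hS0).mp hβ2
  have h1 : Real.cosh (t / 2) * Real.cos α.arg = (a + d) / (2 * σ) := by
    rw [← hαC, ← hαre]; exact Complex.norm_mul_cos_arg α
  have h2 : Real.cosh (t / 2) * Real.sin α.arg = (c - b) / (2 * σ) := by
    rw [← hαC, ← hαim]; exact Complex.norm_mul_sin_arg α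
  have h3 : Real.sinh (t / 2) * Real.cos β.arg = (a - d) / (2 * σ) := by
    rw [← hβS, ← hβre]; exact Complex.norm_mul_cos_arg β
  have h4 : Real.sinh (t / 2) * Real.sin β.arg = (c + b) / (2 * σ) := by
    rw [← hβS, ← hβim]; exact Complex.norm_mul_sin_arg β
  -- the angles
  have hφ : α.arg = (α.arg + β.arg) / 2 + (α.arg - β.arg) / 2 := by ring
  have hψ : β.arg = (α.arg + β.arg) / 2 - (α.arg - β.arg) / 2 := by ring
  have c1 := Real.cos_add ((α.arg + β.arg) / 2) ((α.arg - β.arg) / 2)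
  have s1 := Real.sin_add ((α.arg + β.arg) / 2) ((α.arg - β.arg) / 2)
  have c2 := Real.cos_sub ((α.arg + β.arg) / 2) ((α.arg - β.arg) / 2)
  have s2 := Real.sin_sub ((α.arg + β.arg) / 2) ((α.arg - β.arg) / 2)
  rw [← hφ] at c1 s1
  rw [← hψ] at c2 s2
  rw [c1] at h1
  rw [s1] at h2
  rw [c2] at h3
  rw [s2] at h4
  refine ⟨(α.arg + β.arg) / 2, (α.arg - β.arg) / 2, ?_, ?_, ?_, ?_⟩
  · rw [e1, e2]
    have : a = σ * ((a + d) / (2 * σ) + (a - d) / (2 * σ)) := by field_simp; ring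
    rw [this, ← h1, ← h3]; ring
  · rw [e1, e2]
    have : b = σ * ((c + b) / (2 * σ) - (c - b) / (2 * σ)) := by field_simp; ring
    rw [this, ← h2, ← h4]; ring
  · rw [e1, e2]
    have : c = σ * ((c + b) / (2 * σ) + (c - b) / (2 * σ)) := by field_simp; ring
    rw [this, ← h2, ← h4]; ring
  · rw [e1, e2]
    have : d = σ * ((a + d) / (2 * σ) - (a - d) / (2 * σ)) := by field_simp; ring
    rw [this, ← h1, ← h3]; ring

/-- **T6.23.07 `CartanRC`**: the Cartan decomposition of `GL₂(ℝ)⁺`. -/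
theorem cartanRC_h281 : CartanRC := by
  intro g hg
  have hdet : (g : Matrix (Fin 2) (Fin 2) ℝ).det
      = (g : Matrix (Fin 2) (Fin 2) ℝ) 0 0 * (g : Matrix (Fin 2) (Fin 2) ℝ) 1 1
        - (g : Matrix (Fin 2) (Fin 2) ℝ) 0 1 * (g : Matrix (Fin 2) (Fin 2) ℝ) 1 0 :=
    Matrix.det_fin_two _
  have hD : 0 < (g : Matrix (Fin 2) (Fin 2) ℝ) 0 0 * (g : Matrix (Fin 2) (Fin 2) ℝ) 1 1
        - (g : Matrix (Fin 2) (Fin 2) ℝ) 0 1 * (g : Matrix (Fin 2) (Fin 2) ℝ) 1 0 := by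
    rw [← hdet]; exact hg
  have hρ := rhoP_entries281 g
  have hρ1 : 1 ≤ rhoP g := by
    rw [hρ, le_div_iff₀ (by positivity)]
    nlinarith [sq_nonneg ((g : Matrix (Fin 2) (Fin 2) ℝ) 0 0 - (g : Matrix (Fin 2) (Fin 2) ℝ) 1 1),
      sq_nonneg ((g : Matrix (Fin 2) (Fin 2) ℝ) 0 1 + (g : Matrix (Fin 2) (Fin 2) ℝ) 1 0)]
  refine ⟨hρ1, ?_⟩
  have hσ2 : Real.exp (Real.log (g : Matrix (Fin 2) (Fin 2) ℝ).det / 2) ^ 2
      = (g : Matrix (Fin 2) (Fin 2) ℝ) 0 0 * (g : Matrix (Fin 2) (Fin 2) ℝ) 1 1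
        - (g : Matrix (Fin 2) (Fin 2) ℝ) 0 1 * (g : Matrix (Fin 2) (Fin 2) ℝ) 1 0 := by
    rw [← Real.exp_nat_mul]
    have : ((2 : ℕ) : ℝ) * (Real.log (g : Matrix (Fin 2) (Fin 2) ℝ).det / 2)
        = Real.log (g : Matrix (Fin 2) (Fin 2) ℝ).det := by push_cast; ring
    rw [this, Real.exp_log hg, hdet]
  have hcosh : Real.cosh (Real.arcosh (rhoP g)) = _ := (Real.cosh_arcosh hρ1).trans hρ
  obtain ⟨θ₁, θ₂, ha, hb, hc, hd⟩ := cartanCore281 _ _ _ _ hD _ (Real.exp_pos _) hσ2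
    (Real.arcosh (rhoP g)) (Real.arcosh_nonneg hρ1) hcosh
  refine ⟨θ₁, θ₂, ?_⟩
  apply Matrix.GeneralLinearGroup.ext
  intro i j
  rw [polEntries281]
  fin_cases i <;> fin_cases j
  · simpa using ha
  · simpa using hb
  · simpa using hc
  · simpa using hd

end Fermat.Agent.LT.T6.H281

end
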